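import Fermat.Agent.LT.A2.H254.RecSplitSpec

/-!
# Row LT, tower A2, leaf A2.03.8.5.5 `H254.IntC254`: THE CUT OF THE MEASURE LEAF (helper254)

OFF-MAIN.  Sub-leaf `Prop`s and the PROVED top

    IntC254 ⟸ TorGroupC254 + T1MeasC254 + DecompC254 + SuppC254 + IntegrableC254 + MeasC254
                                                                       (`int_of_leaves254`)

Notation: `ρ = μ μ̄⁻¹`, `T¹ = T1set254`, `U = Uset254`, `f_ξ = orbFn254 D g' m' ξ`.

* `TorGroupC254` (algebra of `torMat`): `T¹(𝔸_K)` is closed under products and inverses.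
* `T1MeasC254`: `T¹(𝔸_K)` and `U` are Borel sets (closed: `𝔸_K` is Hausdorff, `𝒪_v` is closed).
* `DecompC254` (local structure of the split torus): `ρ ∈ T¹` and every `m ∈ T¹(𝔸_K)` lies in
  `ρ^i U` for exactly one `i ∈ ℤ`.
* `SuppC254` (`tor1`, `good_std`, `IsTorusChar.mul`): for `u ∈ U`
  `f_{μ̄^j e₁}(ρ^i u) = [-j ≤ i ≤ 0] (χT μ / χT μ̄)^i f_{e₁}(u)`.
* `IntegrableC254` (`orb_dom`, `cont_pair`): `f_{μ̄^j e₁}` is integrable on `T¹`.
* `MeasC254` (abstract, Mathlib only): unfolding of an integral over `T¹ = ⨆_i ρ^i U` for a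
  measure invariant under the left translations by `T¹`.
-/

set_option autoImplicit false

open IsDedekindDomain NumberField AutomorphicForm MeasureTheory
open scoped MatrixGroups

noncomputable section

namespace Fermat.Agent.LT.A2.H254

open Fermat.Agent.LT.H556 Fermat.Agent.LT.H556.A0 Fermat.Agent.LT.H129
open Fermat.Agent.LT.A2.H142

/-! ## The sub-leaves of the second level -/

/-- **A2.03.8.5.6 TOR-GROUP.**  `T¹(𝔸_K)` is closed under products and inverses. -/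
def TorGroupC254 : Prop :=
  ∀ (K : Type) [Field K] [NumberField K] (t n : K),
    (∀ a b : G K, InTorus1 t n a → InTorus1 t n b → InTorus1 t n (a * b)) ∧
      ∀ a : G K, InTorus1 t n a → InTorus1 t n a⁻¹

/-- **A2.03.8.5.7 T1-MEAS.**  `T¹(𝔸_K)` and `U` are Borel sets. -/
def T1MeasC254 : Prop :=
  ∀ (K : Type) [Field K] [NumberField K], T1.LocCompC K →
    ∀ (t n : K) (v : HeightOneSpectrum (𝓞 K)),
      @MeasurableSet (G K) (borel (G K)) (T1set254 t n) ∧
        @MeasurableSet (G K) (borel (G K)) (Uset254 t n v)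

/-- **A2.03.8.5.8 DECOMP** (local structure of the split torus at `v`, disc a unit).
`ρ = μ μ̄⁻¹ ∈ T¹` and `T¹(𝔸_K) = ⨆_{i ∈ ℤ} ρ^i U`. -/
def DecompC254 : Prop :=
  ∀ (K : Type) [Field K] [NumberField K] (t n : K) (v : HeightOneSpectrum (𝓞 K)),
    Valued.v (algebraMap K (v.adicCompletion K) t) ≤ 1 →
    Valued.v (algebraMap K (v.adicCompletion K) n) ≤ 1 →
    Valued.v (algebraMap K (v.adicCompletion K) (t ^ 2 - 4 * n)) = 1 →
    ∀ ϖ : v.adicCompletion K, Valued.v ϖ = WithZero.exp (-1 : ℤ) →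
    ∀ μ μb : G K, IsSplitPair254 t n v ϖ μ μb →
      InTorus1 t n (μ * μb⁻¹) ∧
        ∀ m : G K, InTorus1 t n m → ∃! i : ℤ, (μ * μb⁻¹) ^ (-i) * m ∈ Uset254 t n v

/-- **A2.03.8.5.9 SUPP.**  For `u ∈ U`:
`f_{μ̄^j e₁}(ρ^i u) = [-j ≤ i ≤ 0] (χT μ / χT μ̄)^i f_{e₁}(u)`. -/
def SuppC254 : Prop :=
  ∀ (K : Type) [Field K] [NumberField K] (D : KData K) (η : (Adl K)ˣ → ℂ) (W : G K → ℂ)
    (v : HeightOneSpectrum (𝓞 K)), HCtx D η W v →
    ∀ (ϖ : v.adicCompletion K), Valued.v ϖ = WithZero.exp (-1 : ℤ) → ∀ (μ μb : G K),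
      IsSplitPair254 D.t D.n v ϖ μ μb →
      ∀ g' m' : G K, TrivAtFin v g' → TrivAtFin v m' → Adm D.t D.n g' m' →
      ∀ (j : ℕ) (i : ℤ) (u : G K), u ∈ Uset254 D.t D.n v →
        orbFn254 D g' m' (actV (μb ^ j) (1, 0)) ((μ * μb⁻¹) ^ i * u)
          = if -(j : ℤ) ≤ i ∧ i ≤ 0 then
              (D.χT μ / D.χT μb) ^ i * orbFn254 D g' m' (1, 0) u
            else 0

/-- **A2.03.8.5.10 INTEGRABLE.**  The orbital integrand at the vector `μ̄^j e₁` is integrable on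
`T¹(𝔸_K)` (by the identity of `FormC254` it is `q^{j/2}` times the integrand of `W` at
`(g_j, μ^j m')`, which is dominated by `orb_dom`; measurable by `cont_pair`). -/
def IntegrableC254 : Prop :=
  ∀ (K : Type) [Field K] [NumberField K] (D : KData K) (η : (Adl K)ˣ → ℂ) (W : G K → ℂ)
    (v : HeightOneSpectrum (𝓞 K)), HCtx D η W v →
    ∀ (ϖ : v.adicCompletion K), Valued.v ϖ = WithZero.exp (-1 : ℤ) → ∀ (μ μb : G K),
      IsSplitPair254 D.t D.n v ϖ μ μb →
      ∀ g' m' : G K, Adm D.t D.n g' m' → ∀ j : ℕ,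
        letI : MeasurableSpace (G K) := borel (G K)
        IntegrableOn (orbFn254 D g' m' (actV (μb ^ j) (1, 0))) (T1set254 D.t D.n) D.μT

/-- **A2.03.8.5.11 MEAS** (abstract; Mathlib only).  Let `μT` be a Borel measure on a topological
group, invariant under the left translations by the elements of a measurable subgroup `T1`, and
`T1 = ⨆_{i ∈ ℤ} ρ^i U`.  Then `∫_{T1} f = ∑_i ∫_U f(ρ^i u) du` for `f` integrable on `T1`. -/
def MeasC254 : Prop :=
  ∀ (G : Type) [Group G] [TopologicalSpace G] [ContinuousMul G],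
    letI : MeasurableSpace G := borel G
    ∀ (μT : Measure G) (T1 U : Set G) (ρ : G),
      MeasurableSet T1 → MeasurableSet U → U ⊆ T1 →
      (∀ a ∈ T1, ∀ b ∈ T1, a * b ∈ T1) → (∀ a ∈ T1, a⁻¹ ∈ T1) → ρ ∈ T1 →
      (∀ m' ∈ T1, ∀ S : Set G, μT ((fun m => m' * m) '' S) = μT S) →
      (∀ m ∈ T1, ∃! i : ℤ, ρ ^ (-i) * m ∈ U) →
      ∀ f : G → ℂ, IntegrableOn f T1 μT →
        HasSum (fun i : ℤ => ∫ u in U, f (ρ ^ i * u) ∂μT) (∫ m in T1, f m ∂μT)

end Fermat.Agent.LT.A2.H254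

end
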