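import Fermat.Agent.LT.A2.H254.IntSpec

/-!
# Row LT, tower A2, leaf A2.03.8.5.5 `H254.IntC254`: THE PROVED TOP (helper254)

    int_of_leaves254 : TorGroupC254 → T1MeasC254 → DecompC254 → SuppC254 → IntegrableC254 →
        MeasC254 → IntC254

OFF-MAIN.  No `sorry`, nothing assumed.
-/

set_option autoImplicit false
set_option linter.style.haveILetI false

open IsDedekindDomain NumberField AutomorphicForm MeasureTheory
open scoped MatrixGroups

noncomputable section

namespace Fermat.Agent.LT.A2.H254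

open Fermat.Agent.LT.H556 Fermat.Agent.LT.H556.A0 Fermat.Agent.LT.H129
open Fermat.Agent.LT.A2.H142

/-- The finite sum `∑_{k ≤ j} x^{-k}` over the integers `-j ≤ i ≤ 0`. -/
theorem hasSum_window254 (x I : ℂ) (j : ℕ) :
    HasSum (fun i : ℤ => if -(j : ℤ) ≤ i ∧ i ≤ 0 then x ^ i * I else 0)
      ((∑ k ∈ Finset.range (j + 1), x ^ (-(k : ℤ))) * I) := by
  classical
  have hinj : Set.InjOn (fun k : ℕ => -(k : ℤ)) (Finset.range (j + 1) : Set ℕ) := by
    intro a _ b _ h
    simpa using h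
  have h1 : HasSum (fun i : ℤ => if -(j : ℤ) ≤ i ∧ i ≤ 0 then x ^ i * I else 0)
      (∑ i ∈ (Finset.range (j + 1)).image (fun k : ℕ => -(k : ℤ)),
        (if -(j : ℤ) ≤ i ∧ i ≤ 0 then x ^ i * I else 0)) :=
    hasSum_sum_of_ne_finset_zero
    (by
      intro i hi
      rw [if_neg]
      rintro ⟨h1, h2⟩
      apply hi
      rw [Finset.mem_image]
      refine ⟨(-i).toNat, ?_, ?_⟩
      · rw [Finset.mem_range]; omega
      · omega)
  rw [Finset.sum_image hinj] at h1
  have h2 : (∑ k ∈ Finset.range (j + 1),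
      (if -(j : ℤ) ≤ -(k : ℤ) ∧ -(k : ℤ) ≤ 0 then x ^ (-(k : ℤ)) * I else 0))
      = (∑ k ∈ Finset.range (j + 1), x ^ (-(k : ℤ))) * I := by
    rw [Finset.sum_mul]
    refine Finset.sum_congr rfl fun k hk => ?_
    rw [if_pos]
    rw [Finset.mem_range] at hk
    constructor <;> omega
  rw [h2] at h1
  exact h1

/-- `α^j ∑_{k ≤ j} (α/β)^{-k} = h_j(α, β)`. -/
theorem pow_mul_window254 (α β : ℂ) (hα : α ≠ 0) (hβ : β ≠ 0) (j : ℕ) :
    α ^ j * ∑ k ∈ Finset.range (j + 1), (α / β) ^ (-(k : ℤ)) = hsum254 α β j := by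
  unfold hsum254
  rw [Finset.mul_sum]
  refine Finset.sum_congr rfl fun k hk => ?_
  have hk' : k ≤ j := Nat.lt_succ_iff.mp (Finset.mem_range.mp hk)
  rw [zpow_neg, zpow_natCast, div_pow, inv_div]
  have : α ^ j = α ^ (j - k) * α ^ k := by rw [← pow_add]; congr 1; omega
  rw [this]
  field_simp

/-- **The top of the measure leaf.** -/
theorem int_of_leaves254 (hTG : TorGroupC254) (hTM : T1MeasC254) (hDec : DecompC254)
    (hSupp : SuppC254) (hIntg : IntegrableC254) (hMeas : MeasC254) : IntC254 := by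
  intro K _ _ D η W v hctx ϖ hϖ μ μb hp g' m' hg' hm' hadm j
  letI : MeasurableSpace (G K) := borel (G K)
  have hgi := hctx.std.good_int v hctx.hv
  obtain ⟨hρ, hdec⟩ := hDec K D.t D.n v hgi.1 hgi.2.1 hgi.2.2 ϖ hϖ μ μb hp
  obtain ⟨hT1m, hUm⟩ := hTM K hctx.t1.locComp D.t D.n v
  obtain ⟨hmul, hinv⟩ := hTG K D.t D.n
  have hUsub : Uset254 D.t D.n v ⊆ T1set254 D.t D.n := fun m hm => hm.1
  have hinvμ := hctx.good.measured.inv
  -- the values of `χT` are roots of unity
  obtain ⟨k, hk, hfin⟩ := hctx.good.torus.fin_order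
  have hα : D.χT μ ≠ 0 := by
    intro h
    have := hfin μ hp.tor
    rw [h, zero_pow hk.ne'] at this
    exact zero_ne_one this
  have hβ : D.χT μb ≠ 0 := by
    intro h
    have := hfin μb hp.torb
    rw [h, zero_pow hk.ne'] at this
    exact zero_ne_one this
  -- the unfolding, for every `j`
  have key : ∀ j : ℕ,
      D.intT (T1set254 D.t D.n) (orbFn254 D g' m' (actV (μb ^ j) (1, 0)))
        = (∑ k ∈ Finset.range (j + 1), (D.χT μ / D.χT μb) ^ (-(k : ℤ))) *
            D.intT (Uset254 D.t D.n v) (orbFn254 D g' m' (1, 0)) := by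
    intro j
    have hs := hMeas (G K) D.μT (T1set254 D.t D.n) (Uset254 D.t D.n v) (μ * μb⁻¹) hT1m hUm hUsub
      (fun a ha b hb => hmul a b ha hb) (fun a ha => hinv a ha) hρ
      (fun m' hm' S => hinvμ m' hm' S) hdec
      (orbFn254 D g' m' (actV (μb ^ j) (1, 0)))
      (hIntg K D η W v hctx ϖ hϖ μ μb hp g' m' hadm j)
    have hterm : ∀ i : ℤ,
        ∫ u in Uset254 D.t D.n v,
            orbFn254 D g' m' (actV (μb ^ j) (1, 0)) ((μ * μb⁻¹) ^ i * u) ∂D.μT
          = if -(j : ℤ) ≤ i ∧ i ≤ 0 then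
              (D.χT μ / D.χT μb) ^ i * D.intT (Uset254 D.t D.n v) (orbFn254 D g' m' (1, 0))
            else 0 := by
      intro i
      rw [setIntegral_congr_fun hUm
        (fun u hu => hSupp K D η W v hctx ϖ hϖ μ μb hp g' m' hg' hm' hadm j i u hu)]
      by_cases h : -(j : ℤ) ≤ i ∧ i ≤ 0
      · simp only [if_pos h]
        rw [integral_const_mul]
        rfl
      · simp only [if_neg h]
        simp
    have hs' : HasSum (fun i : ℤ => if -(j : ℤ) ≤ i ∧ i ≤ 0 then
        (D.χT μ / D.χT μb) ^ i * D.intT (Uset254 D.t D.n v) (orbFn254 D g' m' (1, 0)) else 0)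
        (∫ m in T1set254 D.t D.n, orbFn254 D g' m' (actV (μb ^ j) (1, 0)) m ∂D.μT) := by
      have e : (fun i : ℤ => ∫ u in Uset254 D.t D.n v,
          orbFn254 D g' m' (actV (μb ^ j) (1, 0)) ((μ * μb⁻¹) ^ i * u) ∂D.μT)
          = fun i : ℤ => if -(j : ℤ) ≤ i ∧ i ≤ 0 then
            (D.χT μ / D.χT μb) ^ i * D.intT (Uset254 D.t D.n v) (orbFn254 D g' m' (1, 0))
            else 0 := funext hterm
      rw [← e]
      exact hs
    exact hs'.unique (hasSum_window254 _ _ j)
  have hact : actV (1 : G K) ((1 : Adl K), (0 : Adl K)) = ((1 : Adl K), (0 : Adl K)) := by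
    simp [actV]
  have key0 := key 0
  simp only [pow_zero, zero_add, Finset.range_one, Finset.sum_singleton, Nat.cast_zero, neg_zero,
    zpow_zero, one_mul] at key0
  rw [hact] at key0
  rw [key j, key0, ← mul_assoc, pow_mul_window254 _ _ hα hβ j]

end Fermat.Agent.LT.A2.H254

end
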