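import Fermat.Agent.LT.A2.H254.IntSpec

/-!
# Row LT, tower A2, leaf A2.03.8.5.11 `H254.MeasC254` (helper254)

Abstract unfolding: a Borel measure `μT` on a topological group, invariant under the left
translations by the elements of a measurable subgroup `T1 = ⨆_{i ∈ ℤ} ρ^i U`; then
`∫_{T1} f = ∑_i ∫_U f(ρ^i u) du` for `f` integrable on `T1`.

Mathlib only (the import is needed for the statement).  OFF-MAIN, no `sorry`.
-/

set_option autoImplicit false
set_option linter.style.haveILetI false

open MeasureTheory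

noncomputable section

namespace Fermat.Agent.LT.A2.H254

/-- **A2.03.8.5.11**: the abstract unfolding. -/
theorem measC254 : MeasC254 := by
  intro G _ _ _
  letI : MeasurableSpace G := borel G
  haveI : BorelSpace G := ⟨rfl⟩
  intro μT T1 U ρ hT1 hU hUsub hmul hinv hρ hinvμ hdec f hf
  -- powers of `ρ` lie in `T1`
  have hone : (1 : G) ∈ T1 := by
    have := hmul ρ hρ ρ⁻¹ (hinv ρ hρ)
    rwa [mul_inv_cancel] at this
  have hpowN : ∀ k : ℕ, ρ ^ k ∈ T1 := by
    intro k
    induction k with
    | zero => rw [pow_zero]; exact hone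
    | succ k ih => rw [pow_succ]; exact hmul _ ih _ hρ
  have hpow : ∀ i : ℤ, ρ ^ i ∈ T1 := by
    intro i
    rcases Int.eq_nat_or_neg i with ⟨k, rfl | rfl⟩
    · rw [zpow_natCast]; exact hpowN k
    · rw [zpow_neg, zpow_natCast]; exact hinv _ (hpowN k)
  -- the pieces
  let P : ℤ → Set G := fun i => (fun u => ρ ^ i * u) '' U
  have hPeq : ∀ i : ℤ, P i = (fun m => ρ ^ (-i) * m) ⁻¹' U := by
    intro i
    ext m
    constructor
    · rintro ⟨u, hu, rfl⟩
      show ρ ^ (-i) * (ρ ^ i * u) ∈ U
      rw [← mul_assoc, ← zpow_add, neg_add_cancel, zpow_zero, one_mul]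
      exact hu
    · intro hm
      refine ⟨ρ ^ (-i) * m, hm, ?_⟩
      show ρ ^ i * (ρ ^ (-i) * m) = m
      rw [← mul_assoc, ← zpow_add, add_neg_cancel, zpow_zero, one_mul]
  have hcont : ∀ a : G, Continuous fun m : G => a * m := fun a =>
    continuous_const.mul continuous_id
  have hPmeas : ∀ i : ℤ, MeasurableSet (P i) := by
    intro i
    rw [hPeq i]
    exact (hcont _).measurable hU
  have hPdisj : Pairwise (Function.onFun Disjoint P) := by
    intro i i' hii'
    rw [Function.onFun, Set.disjoint_left]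
    intro m hm hm'
    rw [hPeq i] at hm
    rw [hPeq i'] at hm'
    have hmT : m ∈ T1 := by
      have h1 : ρ ^ (-i) * m ∈ T1 := hUsub hm
      have h2 := hmul _ (hpow i) _ h1
      rwa [← mul_assoc, ← zpow_add, add_neg_cancel, zpow_zero, one_mul] at h2
    obtain ⟨i₀, _, huniq⟩ := hdec m hmT
    exact hii' ((huniq i hm).trans (huniq i' hm').symm)
  have hPunion : (⋃ i : ℤ, P i) = T1 := by
    ext m
    rw [Set.mem_iUnion]
    constructor
    · rintro ⟨i, u, hu, rfl⟩
      exact hmul _ (hpow i) _ (hUsub hu)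
    · intro hm
      obtain ⟨i, hi, _⟩ := hdec m hm
      exact ⟨i, by rw [hPeq i]; exact hi⟩
  -- the unfolding over the union
  have hsum : HasSum (fun i : ℤ => ∫ m in P i, f m ∂μT) (∫ m in ⋃ i : ℤ, P i, f m ∂μT) :=
    hasSum_integral_iUnion hPmeas hPdisj (by rw [hPunion]; exact hf)
  rw [hPunion] at hsum
  -- change of variables in every piece
  have hpiece : ∀ i : ℤ, ∫ m in P i, f m ∂μT = ∫ u in U, f (ρ ^ i * u) ∂μT := by
    intro i
    have hemb : MeasurableEmbedding (fun u : G => ρ ^ i * u) :=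
      (Homeomorph.mulLeft (ρ ^ i)).measurableEmbedding
    have hmap : Measure.map (fun u : G => ρ ^ i * u) μT = μT := by
      ext S hS
      rw [Measure.map_apply (hcont _).measurable hS]
      have himg : (fun u : G => ρ ^ i * u) ⁻¹' S = (fun m => ρ ^ (-i) * m) '' S := by
        ext m
        constructor
        · intro hm
          refine ⟨ρ ^ i * m, hm, ?_⟩
          show ρ ^ (-i) * (ρ ^ i * m) = m
          rw [← mul_assoc, ← zpow_add, neg_add_cancel, zpow_zero, one_mul]
        · rintro ⟨s, hs, rfl⟩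
          show ρ ^ i * (ρ ^ (-i) * s) ∈ S
          rw [← mul_assoc, ← zpow_add, add_neg_cancel, zpow_zero, one_mul]
          exact hs
      rw [himg]
      exact hinvμ _ (hpow (-i)) S
    have hmp : MeasurePreserving (fun u : G => ρ ^ i * u) μT μT :=
      ⟨(hcont _).measurable, hmap⟩
    exact hmp.setIntegral_image_emb hemb f U
  have e : (fun i : ℤ => ∫ u in U, f (ρ ^ i * u) ∂μT) = fun i : ℤ => ∫ m in P i, f m ∂μT :=
    funext fun i => (hpiece i).symm
  rw [e]
  exact hsum

end Fermat.Agent.LT.A2.H254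

end
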