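import Fermat.Agent.LT.A2.H142.HeckeSpec

/-!
# Row LT, tower A2, leaf A2.03.8.5 `H142.RecSplitC`: THE CUT (helper254)

OFF-MAIN.  Definitions, sub-leaf `Prop`s and the PROVED top

    H142.RecSplitC ⟸ PairC254 + PlusC254 + PartnerC254 + FormC254 + IntC254
                                                                  (`recSplit_of_leaves254`)

Vocabulary: `LT/A2/H142/HeckeSpec.lean` (helper142@670ef2ef6, sha256 7c6078cc, byte-identical
copy) and its closure.  Nothing is re-defined, nothing is assumed.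

## The mathematics

`v ∤ π.level` split, `ϖ` a uniformiser, `g'` trivial at `v`, `ω_j = W(diag(ϖ^j, 1)_v g')`.

* `PairC254`: there are `μ, μ̄ ∈ T(𝔸_K)`, supported at `v`, integral at `v`, with
  `det μ_v = det μ̄_v = ϖ`, `μ_v μ̄_v = ϖ`, `μ⁻¹ μ̄` not integral (`IsSplitAt142` gives `m₁`,
  `good_norm` corrects the determinant by a unit, `μ̄ = ϖ μ⁻¹`; `μ⁻¹ μ̄` integral would make
  `X² - tX + n` ramified at `v`, excluded by `good_int`).  Put `α = χT μ`, `β = χT μ̄`; then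
  `a = α + β`, `b = α β` by `InducedAtT`.
* `PlusC254`: if `g' ∉ GL₂(𝔸)⁺` then `ω_j = 0` for all `j` (`det diag(ϖ^j,1)_v = det μ^j` is a norm;
  `IsWhit.off`).
* `PartnerC254`: if `g' ∈ GL₂(𝔸)⁺` is trivial at `v`, it has an admissible partner `m'` trivial at
  `v` (divide any partner by its component at `v`, which lies in `T¹`).
* `FormC254` (`diagA`, `torA`, `quad.norm`, `IsWhit.formula` at the partner `μ^j m'`):
  `√q^j ω_j = α^j ∫_{T¹(𝔸)} F g' (m m') (μ̄^j e₁) χT(m m') dm`.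
* `IntC254` (the measure leaf proper):
  `α^j ∫_{T¹} F g' (m m') (μ̄^j e₁) χT(m m') dm = (∑_{i ≤ j} α^{j-i} β^i) ∫_{T¹} F g' (m m') e₁ χT(m m') dm`
  (`T¹(𝔸) = ⨆_{i ∈ ℤ} ρ^i U`, `ρ = μ μ̄⁻¹`, `U` = the elements of `T¹` integral at `v`;
  `F g' (ρ^i u m') (μ̄^j e₁) = [-j ≤ i ≤ 0] F g' (u m') e₁` by `tor1` and `good_std`).

Hence `√q^j ω_j = h_j ω_0`, `h_j = ∑_{i ≤ j} α^{j-i} β^i`, and `h_{j+2} + αβ h_j = (α+β) h_{j+1}`.

The second level (the cut of `IntC254`) is in `LT/A2/H254/IntSpec.lean`.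
-/

set_option autoImplicit false

open IsDedekindDomain NumberField AutomorphicForm MeasureTheory
open scoped MatrixGroups

noncomputable section

namespace Fermat.Agent.LT.A2.H254

open Fermat.Agent.LT.H556 Fermat.Agent.LT.H556.A0 Fermat.Agent.LT.H129
open Fermat.Agent.LT.A2.H142

variable {K : Type} [Field K] [NumberField K]

/-! ## Vocabulary -/

/-- A SPLIT PAIR at `v` for the uniformiser `ϖ`: `μ, μ̄ ∈ T(𝔸_K)` supported and integral at `v`,
`det μ_v = det μ̄_v = ϖ`, `μ_v μ̄_v = ϖ`, `μ⁻¹ μ̄` not integral at `v`. -/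
structure IsSplitPair254 (t n : K) (v : HeightOneSpectrum (𝓞 K)) (ϖ : v.adicCompletion K)
    (μ μb : G K) : Prop where
  tor : InTorus t n μ
  torb : InTorus t n μb
  loc : IsLocalAtFin v μ
  locb : IsLocalAtFin v μb
  int : IsIntegralAt v μ
  intb : IsIntegralAt v μb
  det : (finComp v μ).det = ϖ
  detb : (finComp v μb).det = ϖ
  mul : finComp v μ * finComp v μb = Matrix.diagonal (fun _ => ϖ)
  ninv : ¬ IsIntegralAt v (μ⁻¹ * μb)

/-- The norm-one torus `T¹(𝔸_K)` as a set. -/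
def T1set254 (t n : K) : Set (G K) := {m | InTorus1 t n m}

/-- `U`: the elements of `T¹(𝔸_K)` which are integral at `v` together with their inverse. -/
def Uset254 (t n : K) (v : HeightOneSpectrum (𝓞 K)) : Set (G K) :=
  {m | InTorus1 t n m ∧ IsIntegralAt v m ∧ IsIntegralAt v m⁻¹}

/-- The orbital integrand `m ↦ F g' (m m') ξ · χT(m m')`. -/
def orbFn254 (D : KData K) (g' m' : G K) (ξ : Adl K × Adl K) : G K → ℂ :=
  fun m => D.F g' (m * m') ξ * D.χT (m * m')

/-- `h_j(α, β) = ∑_{i ≤ j} α^{j-i} β^i`. -/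
def hsum254 (α β : ℂ) (j : ℕ) : ℂ := ∑ i ∈ Finset.range (j + 1), α ^ (j - i) * β ^ i

/-! ## The sub-leaves of the first level -/

/-- **A2.03.8.5.1 PAIR.**  At a split place there is a split pair for every uniformiser. -/
def PairC254 : Prop :=
  ∀ (K : Type) [Field K] [NumberField K] (D : KData K) (η : (Adl K)ˣ → ℂ) (W : G K → ℂ)
    (v : HeightOneSpectrum (𝓞 K)), HCtx D η W v → IsSplitAt142 D.t D.n v →
    ∀ ϖ : v.adicCompletion K, Valued.v ϖ = WithZero.exp (-1 : ℤ) →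
      ∃ μ μb : G K, IsSplitPair254 D.t D.n v ϖ μ μb

/-- **A2.03.8.5.2 PLUS.**  Outside `GL₂(𝔸_K)⁺` all `ω_j` vanish. -/
def PlusC254 : Prop :=
  ∀ (K : Type) [Field K] [NumberField K] (D : KData K) (η : (Adl K)ˣ → ℂ) (W : G K → ℂ)
    (v : HeightOneSpectrum (𝓞 K)), HCtx D η W v → IsSplitAt142 D.t D.n v →
    ∀ (ϖ : v.adicCompletion K) (hϖ : Valued.v ϖ = WithZero.exp (-1 : ℤ)) (g' : G K),
      ¬ InGPlus D.t D.n g' → ∀ j : ℕ, om142 W v ϖ (unif_ne_zero129 v hϖ) g' j = 0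

/-- **A2.03.8.5.3 PARTNER.**  An element of `GL₂(𝔸_K)⁺` which is trivial at `v` has an admissible
partner which is trivial at `v`. -/
def PartnerC254 : Prop :=
  ∀ (K : Type) [Field K] [NumberField K] (t n : K) (v : HeightOneSpectrum (𝓞 K)) (g' : G K),
    TrivAtFin v g' → InGPlus t n g' → ∃ m' : G K, Adm t n g' m' ∧ TrivAtFin v m'

/-- **A2.03.8.5.4 FORM.**  `√q^j ω_j = χT(μ)^j ∫_{T¹} F g' (m m') (μ̄^j e₁) χT(m m') dm`. -/
def FormC254 : Prop :=
  ∀ (K : Type) [Field K] [NumberField K] (D : KData K) (η : (Adl K)ˣ → ℂ) (W : G K → ℂ)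
    (v : HeightOneSpectrum (𝓞 K)), HCtx D η W v →
    ∀ (ϖ : v.adicCompletion K) (hϖ : Valued.v ϖ = WithZero.exp (-1 : ℤ)) (μ μb : G K),
      IsSplitPair254 D.t D.n v ϖ μ μb →
      ∀ g' m' : G K, Adm D.t D.n g' m' → ∀ j : ℕ,
        sqC142 v ^ j * om142 W v ϖ (unif_ne_zero129 v hϖ) g' j
          = D.χT μ ^ j *
            D.intT (T1set254 D.t D.n) (orbFn254 D g' m' (actV (μb ^ j) (1, 0)))

/-- **A2.03.8.5.5 INT** (the measure leaf proper; cut in `IntSpec.lean`). -/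
def IntC254 : Prop :=
  ∀ (K : Type) [Field K] [NumberField K] (D : KData K) (η : (Adl K)ˣ → ℂ) (W : G K → ℂ)
    (v : HeightOneSpectrum (𝓞 K)), HCtx D η W v →
    ∀ (ϖ : v.adicCompletion K), Valued.v ϖ = WithZero.exp (-1 : ℤ) → ∀ (μ μb : G K),
      IsSplitPair254 D.t D.n v ϖ μ μb →
      ∀ g' m' : G K, TrivAtFin v g' → TrivAtFin v m' → Adm D.t D.n g' m' → ∀ j : ℕ,
        D.χT μ ^ j * D.intT (T1set254 D.t D.n) (orbFn254 D g' m' (actV (μb ^ j) (1, 0)))
          = hsum254 (D.χT μ) (D.χT μb) j *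
            D.intT (T1set254 D.t D.n) (orbFn254 D g' m' (1, 0))

/-! ## The top -/

theorem hsum254_zero (α β : ℂ) : hsum254 α β 0 = 1 := by
  simp [hsum254]

theorem hsum254_one (α β : ℂ) : hsum254 α β 1 = α + β := by
  simp [hsum254, Finset.sum_range_succ]

/-- `h_{j+1} = α h_j + β^{j+1}`. -/
theorem hsum254_succ (α β : ℂ) (j : ℕ) :
    hsum254 α β (j + 1) = α * hsum254 α β j + β ^ (j + 1) := by
  unfold hsum254
  rw [Finset.sum_range_succ _ (j + 1), Finset.mul_sum]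
  congr 1
  · refine Finset.sum_congr rfl fun i hi => ?_
    have hij : i ≤ j := Nat.lt_succ_iff.mp (Finset.mem_range.mp hi)
    rw [show j + 1 - i = (j - i) + 1 by omega, pow_succ]
    ring
  · simp

/-- `h_{j+1} = β h_j + α^{j+1}`. -/
theorem hsum254_succ' (α β : ℂ) (j : ℕ) :
    hsum254 α β (j + 1) = β * hsum254 α β j + α ^ (j + 1) := by
  unfold hsum254
  rw [Finset.sum_range_succ' _ (j + 1), Finset.mul_sum]
  congr 1
  · refine Finset.sum_congr rfl fun i hi => ?_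
    rw [show j + 1 - (i + 1) = j - i by omega, pow_succ]
    ring
  · simp

/-- The three-term recursion `h_{j+2} + αβ h_j = (α + β) h_{j+1}`. -/
theorem hsum254_rec (α β : ℂ) (j : ℕ) :
    hsum254 α β (j + 2) + α * β * hsum254 α β j = (α + β) * hsum254 α β (j + 1) := by
  have h1 := hsum254_succ α β (j + 1)
  have h2 := hsum254_succ' α β j
  have h3 := hsum254_succ α β j
  rw [show j + 1 + 1 = j + 2 by rfl] at h1
  rw [h1]
  have : β ^ (j + 1 + 1) = β * β ^ (j + 1) := by rw [pow_succ]; ring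
  rw [this]
  have h4 : β ^ (j + 1) = hsum254 α β (j + 1) - α * hsum254 α β j := by rw [h3]; ring
  rw [h4]
  ring

theorem sqC142_sq (v : HeightOneSpectrum (𝓞 K)) : sqC142 v ^ 2 = qC142 v := by
  unfold sqC142 qC142
  rw [← Complex.ofReal_pow, Real.sq_sqrt (Nat.cast_nonneg _)]
  simp

theorem sqC142_ne_zero (v : HeightOneSpectrum (𝓞 K)) : sqC142 v ≠ 0 := by
  intro h
  have h2 := sqC142_sq v
  rw [h] at h2
  unfold qC142 at h2
  have h3 : ((Ideal.absNorm v.asIdeal : ℕ) : ℂ) = 0 := by rw [← h2]; simp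
  have h4 : Ideal.absNorm v.asIdeal = 0 := by exact_mod_cast h3
  rw [Ideal.absNorm_eq_zero_iff] at h4
  exact v.ne_bot h4

/-- The recursion from the closed form `√q^j ω_j = h_j ω_0`. -/
theorem rec142_of_closed254 (v : HeightOneSpectrum (𝓞 K)) (ω : ℕ → ℂ) (α β : ℂ)
    (h : ∀ j : ℕ, sqC142 v ^ j * ω j = hsum254 α β j * ω 0) :
    Rec142 v ω (α + β) (α * β) := by
  have hs := sqC142_ne_zero v
  refine ⟨?_, fun j => ?_⟩
  · have h1 := h 1
    rw [pow_one, hsum254_one] at h1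
    rw [← sqC142_sq, pow_two, mul_assoc, h1]
    ring
  · have h0 := h j
    have h1 := h (j + 1)
    have h2 := h (j + 2)
    have hr := hsum254_rec α β j
    have hpow : sqC142 v ^ j ≠ 0 := pow_ne_zero _ hs
    apply mul_left_cancel₀ hpow
    have e1 : sqC142 v ^ j * (qC142 v * ω (j + 2) + α * β * ω j)
        = sqC142 v ^ (j + 2) * ω (j + 2) + α * β * (sqC142 v ^ j * ω j) := by
      rw [← sqC142_sq]; ring
    have e2 : sqC142 v ^ j * (sqC142 v * (α + β) * ω (j + 1))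
        = (α + β) * (sqC142 v ^ (j + 1) * ω (j + 1)) := by ring
    rw [e1, e2, h0, h1, h2]
    linear_combination (ω 0) * hr

/-- **The top**: `H142.RecSplitC` from the five sub-leaves. -/
theorem recSplit_of_leaves254 (hPair : PairC254) (hPlus : PlusC254) (hPart : PartnerC254)
    (hForm : FormC254) (hInt : IntC254) : RecSplitC := by
  intro K _ _ D η W v hctx hsplit ϖ hϖ g' hg'
  by_cases hplus : InGPlus D.t D.n g'
  · obtain ⟨m', hadm, hm'⟩ := hPart K D.t D.n v g' hg' hplus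
    obtain ⟨μ, μb, hp⟩ := hPair K D η W v hctx hsplit ϖ hϖ
    have hdet : Valued.v (finComp v μ).det = WithZero.exp (-1 : ℤ) := by rw [hp.det]; exact hϖ
    have hdetb : Valued.v (finComp v μb).det = WithZero.exp (-1 : ℤ) := by
      rw [hp.detb]; exact hϖ
    obtain ⟨ha, hb⟩ := (hctx.ind v hctx.hv).1 μ μb hp.tor hp.torb hp.loc hp.locb hp.int hp.intb
      hdet hdetb hp.ninv
    rw [ha, hb]
    apply rec142_of_closed254
    intro j
    have hF := hForm K D η W v hctx ϖ hϖ μ μb hp g' m' hadm j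
    have hI := hInt K D η W v hctx ϖ hϖ μ μb hp g' m' hg' hm' hadm j
    have hF0 := hForm K D η W v hctx ϖ hϖ μ μb hp g' m' hadm 0
    simp only [pow_zero, one_mul] at hF0
    have hact : actV (1 : G K) ((1 : Adl K), (0 : Adl K)) = ((1 : Adl K), (0 : Adl K)) := by
      simp [actV]
    rw [hact] at hF0
    rw [hF, hI, hF0]
  · have h0 := hPlus K D η W v hctx hsplit ϖ hϖ g' hplus
    refine ⟨?_, fun j => ?_⟩
    · rw [h0 1, h0 0]; ring
    · rw [h0 (j + 2), h0 j, h0 (j + 1)]; ring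

end Fermat.Agent.LT.A2.H254

end
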